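import Mathlib
import Fermat.Agent.LT.H556.A0
import Fermat.Agent.LT.T1.Spec
import Fermat.Agent.LT.H11.LC
import Fermat.Agent.LT.T1.H793.AdeleProj
import Fermat.Agent.LT.T1.H793.Height

/-!
# Row LT, tower T1 (helper919, OFF-MAIN): the standard compact subgroup `K⁰` is compact

* `isCompact_box919 R`   : the box `{x ∈ 𝔸_K : ‖x_w‖ ≤ R (w ∣ ∞), x_v ∈ 𝒪_v (v finite)}` is compact;
* `isCompact_stdCompact919` : `{k ∈ GL₂(𝔸_K) : IsStdCompact K k}` is compact in the units topology
  (a closed subset of the compact set `{g : g, g⁻¹ have all entries in the box of radius 1}`).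

No definition of the tower is re-defined; `Adl`, `G`, `infComp`, `finComp` are those of
`LT/H556/A0.lean`, `IsStdCompact` is that of `LT/T1/Spec.lean`.
-/

set_option autoImplicit false

open IsDedekindDomain NumberField
open scoped RestrictedProduct
open Fermat.Agent.LT.H556.A0
open Fermat.Agent.LT.T1
open Fermat.Agent.LT.T1.H793

noncomputable section

namespace Fermat.Agent.LT.T1.H919

variable {K : Type} [Field K] [NumberField K]

/-! ## Compact boxes in the adele ring -/

omit [NumberField K] in
/-- Closed balls of the completion at an infinite place are compact. -/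
lemma isCompact_closedBall_infCompletion919 (w : InfinitePlace K) (R : ℝ) :
    IsCompact {x : w.Completion | ‖x‖ ≤ R} := by
  have h : {x : w.Completion | ‖x‖ ≤ R}
      = (InfinitePlace.Completion.extensionEmbedding w) ⁻¹' (Metric.closedBall 0 R) := by
    ext x
    show ‖x‖ ≤ R ↔ InfinitePlace.Completion.extensionEmbedding w x ∈ Metric.closedBall 0 R
    rw [Metric.mem_closedBall, dist_zero_right, norm_extensionEmbedding793]
  rw [h]
  exact (InfinitePlace.Completion.isometry_extensionEmbedding w).isClosedEmbedding.isCompact_preimage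
    (isCompact_closedBall 0 R)

/-- The box of radius `R`: archimedean components of norm `≤ R`, integral finite components. -/
def box919 (K : Type) [Field K] [NumberField K] (R : ℝ) : Set (Adl K) :=
  {x | (∀ w : InfinitePlace K, ‖x.1 w‖ ≤ R) ∧
    ∀ v : HeightOneSpectrum (𝓞 K), x.2 v ∈ v.adicCompletionIntegers K}

omit [NumberField K] in
lemma isCompact_infBox919 (R : ℝ) :
    IsCompact {f : InfiniteAdeleRing K | ∀ w : InfinitePlace K, ‖f w‖ ≤ R} := by
  have h := isCompact_univ_pi
    (fun w : InfinitePlace K => isCompact_closedBall_infCompletion919 w R)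
  have e : {f : InfiniteAdeleRing K | ∀ w : InfinitePlace K, ‖f w‖ ≤ R}
      = Set.pi Set.univ (fun w : InfinitePlace K => {x : w.Completion | ‖x‖ ≤ R}) := by
    ext f
    constructor
    · intro hf w _
      exact hf w
    · intro hf w
      exact hf w (Set.mem_univ w)
  rw [e]
  exact h

lemma isCompact_finBox919 :
    IsCompact {f : FiniteAdeleRing (𝓞 K) K |
      ∀ v : HeightOneSpectrum (𝓞 K), f v ∈ v.adicCompletionIntegers K} := by
  have : ∀ v : HeightOneSpectrum (𝓞 K), CompactSpace (v.adicCompletionIntegers K) :=
    fun v => Fermat.Agent.LT.H11.LC.compactSpace_integers_h11 K v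
  have h := isCompact_range
    (RestrictedProduct.isEmbedding_structureMap
      (R := fun v : HeightOneSpectrum (𝓞 K) => v.adicCompletion K)
      (A := fun v : HeightOneSpectrum (𝓞 K) =>
        (v.adicCompletionIntegers K : Set (v.adicCompletion K)))
      (𝓕 := Filter.cofinite)).continuous
  rw [RestrictedProduct.range_structureMap] at h
  exact h

theorem isCompact_box919 (R : ℝ) : IsCompact (box919 K R) := by
  have h := (isCompact_infBox919 (K := K) R).prod (isCompact_finBox919 (K := K))
  have e : box919 K R
      = {f : InfiniteAdeleRing K | ∀ w : InfinitePlace K, ‖f w‖ ≤ R} ×ˢ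
        {f : FiniteAdeleRing (𝓞 K) K |
          ∀ v : HeightOneSpectrum (𝓞 K), f v ∈ v.adicCompletionIntegers K} := by
    ext x
    rfl
  rw [e]
  exact h

/-! ## Continuity of the local components -/

lemma continuous_projInf919 (w : InfinitePlace K) : Continuous (fun x : Adl K => x.1 w) :=
  (continuous_apply w).comp continuous_fst

lemma continuous_projFin919 (v : HeightOneSpectrum (𝓞 K)) :
    Continuous (fun x : Adl K => x.2 v) :=
  (RestrictedProduct.continuous_eval v).comp continuous_snd

lemma continuous_entry919 (i j : Fin 2) :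
    Continuous (fun g : G K => (g : Matrix (Fin 2) (Fin 2) (Adl K)) i j) :=
  Units.continuous_val.matrix_elem i j

lemma continuous_finComp919 (v : HeightOneSpectrum (𝓞 K)) (i j : Fin 2) :
    Continuous (fun g : G K => finComp v g i j) :=
  (continuous_projFin919 v).comp (continuous_entry919 i j)

lemma continuous_infComp_entry919 (w : InfinitePlace K) (i j : Fin 2) :
    Continuous (fun g : G K => infComp w g i j) :=
  (InfinitePlace.Completion.isometry_extensionEmbedding w).continuous.comp
    ((continuous_projInf919 w).comp (continuous_entry919 i j))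

lemma continuous_infComp919 (w : InfinitePlace K) :
    Continuous (fun g : G K => infComp w g) :=
  continuous_matrix (fun i j => continuous_infComp_entry919 w i j)

/-! ## `K⁰` is closed -/

lemma isClosed_isIntegralAt919 (v : HeightOneSpectrum (𝓞 K)) :
    IsClosed {g : G K | IsIntegralAt v g} := by
  have e : {g : G K | IsIntegralAt v g}
      = ⋂ i : Fin 2, ⋂ j : Fin 2,
        (fun g : G K => finComp v g i j) ⁻¹'
          (v.adicCompletionIntegers K : Set (v.adicCompletion K)) := by
    ext g
    simp only [Set.mem_iInter, Set.mem_preimage, SetLike.mem_coe]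
    rfl
  rw [e]
  exact isClosed_iInter fun i => isClosed_iInter fun j =>
    (Valued.isClosed_valuationSubring (v.adicCompletion K)).preimage (continuous_finComp919 v i j)

theorem isClosed_stdCompact919 : IsClosed {k : G K | IsStdCompact K k} := by
  have e : {k : G K | IsStdCompact K k}
      = (⋂ v : HeightOneSpectrum (𝓞 K),
          ({g : G K | IsIntegralAt v g} ∩ (fun g : G K => g⁻¹) ⁻¹' {g : G K | IsIntegralAt v g}))
        ∩ ⋂ w : InfinitePlace K,
          ({g : G K | infComp w g * (infComp w g).conjTranspose = 1} ∩
            {g : G K | w.IsReal → (infComp w g).det = 1}) := by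
    ext k
    simp only [Set.mem_inter_iff, Set.mem_iInter, Set.mem_preimage]
    rfl
  rw [e]
  refine IsClosed.inter (isClosed_iInter fun v => ?_) (isClosed_iInter fun w => ?_)
  · exact (isClosed_isIntegralAt919 v).inter ((isClosed_isIntegralAt919 v).preimage continuous_inv)
  · refine IsClosed.inter ?_ ?_
    · exact isClosed_eq
        ((continuous_infComp919 w).mul (continuous_infComp919 w).matrix_conjTranspose)
        continuous_const
    · by_cases hw : w.IsReal
      · have e2 : {g : G K | w.IsReal → (infComp w g).det = 1}
            = {g : G K | (infComp w g).det = 1} := by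
          ext g
          exact ⟨fun h => h hw, fun h _ => h⟩
        rw [e2]
        exact isClosed_eq (continuous_infComp919 w).matrix_det continuous_const
      · have e2 : {g : G K | w.IsReal → (infComp w g).det = 1} = Set.univ := by
          ext g
          exact ⟨fun _ => Set.mem_univ g, fun _ h => absurd h hw⟩
        rw [e2]
        exact isClosed_univ

/-! ## `K⁰` is compact -/

/-- Matrices with all entries in the box of radius `1`. -/
def boxM919 (K : Type) [Field K] [NumberField K] : Set (Matrix (Fin 2) (Fin 2) (Adl K)) :=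
  {M | ∀ i j, M i j ∈ box919 K 1}

lemma isCompact_boxM919 : IsCompact (boxM919 K) := by
  have h : IsCompact (Set.pi Set.univ (fun _ : Fin 2 =>
      Set.pi Set.univ (fun _ : Fin 2 => box919 K 1))) :=
    isCompact_univ_pi (fun _ => isCompact_univ_pi (fun _ => isCompact_box919 1))
  have e : boxM919 K = Set.pi Set.univ (fun _ : Fin 2 =>
      Set.pi Set.univ (fun _ : Fin 2 => box919 K 1)) := by
    ext M
    constructor
    · intro hM i _ j _
      exact hM i j
    · intro hM i j
      exact hM i (Set.mem_univ i) j (Set.mem_univ j)
  rw [e]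
  exact h

/-- Entries of an element of `K⁰` lie in the box of radius `1`. -/
lemma entry_mem_box_of_std919 {k : G K} (hk : IsStdCompact K k) (i j : Fin 2) :
    (k : Matrix (Fin 2) (Fin 2) (Adl K)) i j ∈ box919 K 1 := by
  refine ⟨fun w => ?_, fun v => (hk.1 v).1 i j⟩
  rw [← norm_extensionEmbedding793]
  have hU : infComp w k ∈ Matrix.unitaryGroup (Fin 2) ℂ := by
    rw [Matrix.mem_unitaryGroup_iff]
    exact (hk.2 w).1
  exact entry_norm_bound_of_unitary hU i j

/-- **The standard compact subgroup `K⁰` of `GL₂(𝔸_K)` is compact.** -/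
theorem isCompact_stdCompact919 : IsCompact {k : G K | IsStdCompact K k} := by
  have : T2Space (Adl K) := Fermat.Agent.LT.H11.LC.t2Space_adeleRing_h11 K
  have : T2Space (Matrix (Fin 2) (Fin 2) (Adl K)) :=
    Fermat.Agent.LT.H11.LC.t2Space_matrix_h11 (Fin 2) (Adl K)
  have hop : IsCompact (MulOpposite.unop ⁻¹' (boxM919 K) :
      Set (Matrix (Fin 2) (Fin 2) (Adl K))ᵐᵒᵖ) := by
    have := (isCompact_boxM919 (K := K)).image (MulOpposite.continuous_op)
    convert this using 1
    ext x
    simp only [Set.mem_preimage, Set.mem_image]
    constructor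
    · intro hx
      exact ⟨x.unop, hx, MulOpposite.op_unop x⟩
    · rintro ⟨y, hy, rfl⟩
      exact hy
  have hS : IsCompact ((Units.embedProduct (Matrix (Fin 2) (Fin 2) (Adl K))) ⁻¹'
      ((boxM919 K) ×ˢ (MulOpposite.unop ⁻¹' (boxM919 K)))) :=
    Units.isClosedEmbedding_embedProduct.isCompact_preimage (isCompact_boxM919.prod hop)
  refine hS.of_isClosed_subset isClosed_stdCompact919 ?_
  intro k hk
  refine ⟨fun i j => entry_mem_box_of_std919 hk i j, fun i j => ?_⟩
  exact entry_mem_box_of_std919 (isStdCompact_inv793 hk) i j

end Fermat.Agent.LT.T1.H919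

end
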