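import Mathlib
import Fermat.Agent.LT.H556.A0
import Fermat.Agent.LT.T1.Spec
import Fermat.Agent.LT.T1.H793.AdeleProj
import Fermat.Agent.LT.T1.H793.Height

/-!
# Row LT, tower T1 (helper919, OFF-MAIN): tools for `SiegelCompactC`

* `realTo919 w : ℝ →+* w.Completion` : the real numbers in the completion at an infinite place,
  `extensionEmbedding w (realTo919 w s) = s`, isometric;
* `rayAdl919 K : ℝ →* 𝔸_K` : `s ↦ (s at every infinite place, 1 at every finite place)`, continuous,
  `adNorm K (rayAdl919 K s) = |s| ^ [K : ℚ]`;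
* `up919 y u = [[y, u], [0, 1]]` in `GL₂(R)`, multiplication rule, functoriality, continuity over
  the adeles;
* `scalarG919 c` : the scalar matrix of a unit, central.
-/

set_option autoImplicit false

open IsDedekindDomain NumberField
open Fermat.Agent.LT.H556.A0
open Fermat.Agent.LT.T1
open Fermat.Agent.LT.T1.H793

noncomputable section

namespace Fermat.Agent.LT.T1.H919

/-! ## Upper triangular matrices `[[y, u], [0, 1]]` -/

section Up

variable {R : Type*} [CommRing R]

/-- The matrix `[[y, u], [0, 1]]` as an element of `GL₂(R)`. -/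
def up919 (y : Rˣ) (u : R) : GL (Fin 2) R where
  val := !![(y : R), u; 0, 1]
  inv := !![((y⁻¹ : Rˣ) : R), -(((y⁻¹ : Rˣ) : R) * u); 0, 1]
  val_inv := by
    rw [Matrix.mul_fin_two, Matrix.one_fin_two]
    congr 1
    simp
  inv_val := by
    rw [Matrix.mul_fin_two, Matrix.one_fin_two]
    congr 1
    simp

@[simp] lemma up919_val (y : Rˣ) (u : R) :
    ((up919 y u : GL (Fin 2) R) : Matrix (Fin 2) (Fin 2) R) = !![(y : R), u; 0, 1] := rfl

lemma up919_inv_val (y : Rˣ) (u : R) :
    (((up919 y u)⁻¹ : GL (Fin 2) R) : Matrix (Fin 2) (Fin 2) R)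
      = !![((y⁻¹ : Rˣ) : R), -(((y⁻¹ : Rˣ) : R) * u); 0, 1] := rfl

lemma up919_mul (y y' : Rˣ) (u u' : R) :
    up919 y u * up919 y' u' = up919 (y * y') ((y : R) * u' + u) := by
  apply Units.ext
  rw [Units.val_mul, up919_val, up919_val, up919_val, Matrix.mul_fin_two]
  congr 1
  simp

lemma map_up919 {S : Type*} [CommRing S] (f : R →+* S) (y : Rˣ) (u : R) :
    Matrix.GeneralLinearGroup.map f (up919 y u) = up919 (Units.map f.toMonoidHom y) (f u) := by
  apply Units.ext
  ext i j
  fin_cases i <;> fin_cases j <;> simp [Matrix.GeneralLinearGroup.map]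

/-- The scalar matrix of a unit. -/
def scalarG919 (c : Rˣ) : GL (Fin 2) R :=
  Units.map (Matrix.scalar (Fin 2) : R →+* Matrix (Fin 2) (Fin 2) R).toMonoidHom c

lemma scalarG919_val (c : Rˣ) :
    ((scalarG919 c : GL (Fin 2) R) : Matrix (Fin 2) (Fin 2) R)
      = Matrix.diagonal (fun _ => (c : R)) := by
  show Matrix.scalar (Fin 2) (c : R) = _
  rw [Matrix.scalar_apply]

lemma scalarG919_comm (c : Rˣ) (g : GL (Fin 2) R) : scalarG919 c * g = g * scalarG919 c := by
  apply Units.ext
  rw [Units.val_mul, Units.val_mul]
  exact (Matrix.scalar_commute (c : R) (fun r => Commute.all _ _)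
    (g : Matrix (Fin 2) (Fin 2) R)).eq

/-- An upper triangular matrix is the product of the scalar matrix of its lower right entry and a
matrix `[[y, u], [0, 1]]`. -/
lemma upper_eq_scalar_mul_up919 (b : GL (Fin 2) R)
    (hb : (b : Matrix (Fin 2) (Fin 2) R) 1 0 = 0) (a1 a2 : Rˣ)
    (h1 : (a1 : R) = (b : Matrix (Fin 2) (Fin 2) R) 0 0)
    (h2 : (a2 : R) = (b : Matrix (Fin 2) (Fin 2) R) 1 1) :
    b = scalarG919 a2 * up919 (a1 * a2⁻¹) ((b : Matrix (Fin 2) (Fin 2) R) 0 1 * ((a2⁻¹ : Rˣ) : R)) := by
  apply Units.ext
  rw [Units.val_mul, scalarG919_val, up919_val]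
  conv_lhs => rw [Matrix.eta_fin_two (b : Matrix (Fin 2) (Fin 2) R)]
  rw [hb, ← h1, ← h2]
  ext i j
  fin_cases i <;> fin_cases j <;>
    simp [Matrix.diagonal_mul, Units.val_mul, mul_comm, mul_left_comm]

end Up

variable {K : Type} [Field K] [NumberField K]

/-! ## The real numbers in the completion at an infinite place -/

open scoped Classical in
/-- The embedding of `ℝ` in the completion at the infinite place `w`. -/
def realTo919 (w : InfinitePlace K) : ℝ →+* w.Completion :=
  if hw : w.IsReal then
    ((InfinitePlace.Completion.ringEquivRealOfIsReal hw).symm : ℝ →+* w.Completion)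
  else
    ((InfinitePlace.Completion.ringEquivComplexOfIsComplex
      (InfinitePlace.not_isReal_iff_isComplex.mp hw)).symm : ℂ →+* w.Completion).comp
      Complex.ofRealHom

omit [NumberField K] in
lemma extensionEmbedding_realTo919 (w : InfinitePlace K) (s : ℝ) :
    InfinitePlace.Completion.extensionEmbedding w (realTo919 w s) = (s : ℂ) := by
  unfold realTo919
  by_cases hw : w.IsReal
  · rw [dif_pos hw, ← InfinitePlace.Completion.extensionEmbeddingOfIsReal_apply hw]
    congr 1
    exact (InfinitePlace.Completion.ringEquivRealOfIsReal hw).apply_symm_apply s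
  · rw [dif_neg hw]
    exact (InfinitePlace.Completion.ringEquivComplexOfIsComplex
      (InfinitePlace.not_isReal_iff_isComplex.mp hw)).apply_symm_apply (s : ℂ)

omit [NumberField K] in
lemma norm_realTo919 (w : InfinitePlace K) (s : ℝ) : ‖realTo919 w s‖ = |s| := by
  rw [← norm_extensionEmbedding793, extensionEmbedding_realTo919, Complex.norm_real,
    Real.norm_eq_abs]

omit [NumberField K] in
lemma continuous_realTo919 (w : InfinitePlace K) : Continuous (realTo919 w) :=
  (AddMonoidHomClass.isometry_of_norm (realTo919 w)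
    (fun s => by rw [norm_realTo919, Real.norm_eq_abs])).continuous

/-! ## The ray -/

/-- The ray: `s` at every infinite place, `1` at every finite place. -/
def rayAdl919 (K : Type) [Field K] [NumberField K] : ℝ →* Adl K where
  toFun s := ((fun w => realTo919 w s), 1)
  map_one' := by
    refine Prod.ext (funext fun w => ?_) rfl
    exact map_one (realTo919 w)
  map_mul' s t := by
    refine Prod.ext (funext fun w => ?_) (mul_one 1).symm
    exact map_mul (realTo919 w) s t

lemma rayAdl919_inf (s : ℝ) (w : InfinitePlace K) : (rayAdl919 K s).1 w = realTo919 w s := rfl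

lemma rayAdl919_fin (s : ℝ) (v : HeightOneSpectrum (𝓞 K)) :
    (rayAdl919 K s).2 v = 1 := rfl

lemma continuous_rayAdl919 : Continuous (rayAdl919 K) :=
  Continuous.prodMk (continuous_pi fun w => continuous_realTo919 w) continuous_const

/-- The module of the ray element. -/
lemma adNorm_rayAdl919 (s : ℝ) : adNorm K (rayAdl919 K s) = |s| ^ Module.finrank ℚ K := by
  unfold adNorm
  have h1 : ∏ᶠ v : HeightOneSpectrum (𝓞 K), ‖(rayAdl919 K s).2 v‖ = 1 :=
    finprod_eq_one_of_forall_eq_one (fun v => by rw [rayAdl919_fin, norm_one])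
  rw [h1, mul_one]
  simp only [rayAdl919_inf, norm_realTo919]
  rw [Finset.prod_pow_eq_pow_sum, InfinitePlace.sum_mult_eq]

/-- The ray element of `GL₂(𝔸_K)`: `diag(s, 1)` at the infinite places, `1` at the finite
places. -/
def rayG919 (K : Type) [Field K] [NumberField K] (s : ℝˣ) : G K :=
  up919 (Units.map (rayAdl919 K) s) 0

lemma isRay_rayG919 (s : ℝˣ) : IsRay K (rayG919 K s) (s : ℝ) := by
  refine ⟨fun v => ?_, fun w => ?_⟩
  · show finComp v (rayG919 K s) = 1
    refine Matrix.ext fun i j => ?_
    fin_cases i <;> fin_cases j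
    · show (rayAdl919 K (s : ℝ)).2 v = 1
      rfl
    · show (0 : Adl K).2 v = 0
      rfl
    · show (0 : Adl K).2 v = 0
      rfl
    · show (1 : Adl K).2 v = 1
      rfl
  · refine Matrix.ext fun i j => ?_
    fin_cases i <;> fin_cases j
    · show InfinitePlace.Completion.extensionEmbedding w ((rayAdl919 K (s : ℝ)).1 w) = (s : ℂ)
      rw [rayAdl919_inf, extensionEmbedding_realTo919]
    · show InfinitePlace.Completion.extensionEmbedding w ((0 : Adl K).1 w) = 0
      exact map_zero _
    · show InfinitePlace.Completion.extensionEmbedding w ((0 : Adl K).1 w) = 0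
      exact map_zero _
    · show InfinitePlace.Completion.extensionEmbedding w ((1 : Adl K).1 w) = 1
      exact map_one _

/-! ## Continuity of `up919` over the adeles -/

lemma continuous_up919 :
    Continuous (fun p : (Adl K)ˣ × Adl K => (up919 p.1 p.2 : G K)) := by
  rw [Units.continuous_iff]
  constructor
  · refine continuous_matrix (fun i j => ?_)
    fin_cases i <;> fin_cases j
    · exact Units.continuous_val.comp continuous_fst
    · exact continuous_snd
    · exact continuous_const
    · exact continuous_const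
  · refine continuous_matrix (fun i j => ?_)
    fin_cases i <;> fin_cases j
    · exact Units.continuous_coe_inv.comp continuous_fst
    · exact ((Units.continuous_coe_inv.comp continuous_fst).mul continuous_snd).neg
    · exact continuous_const
    · exact continuous_const

end Fermat.Agent.LT.T1.H919

end
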