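import Mathlib
import Fermat.Agent.LT.H556.A0
import Fermat.Agent.LT.T1.Spec
import Fermat.Agent.LT.H11.LC
import Fermat.Agent.LT.T1.H793.AdeleProj
import Fermat.Agent.LT.T1.H793.Height
import Fermat.Agent.LT.T1.H919.K0Compact
import Fermat.Agent.LT.T1.H919.SiegelTools

/-!
# Row LT, tower T1, sub-leaf T1.16 (helper919, OFF-MAIN): `LeafSiegelCompact`

`leafSiegelCompact919 K : LeafSiegelCompact K`, VERBATIM against `LT/T1/Spec.lean` v1
(helper54@675fbadd3), and the stronger `siegelCompactC919 : AdeleLatticeC K → AdNormC K →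
FujisakiC K → SiegelCompactC K` (the hypotheses `LocCompC`, `IwasawaC`, `HeightC` of the leaf are
not used: `HasHeight` carries its own Iwasawa decomposition).

Proof.  `g = b k`, `b = [[a₁, x], [0, a₂]]`, `t = ‖a₁/a₂‖`.  Put `z = a₂` (central),
`y = a₁/a₂`, `s = t^{1/n}` (`n = [K : ℚ]`), `r = ray(s)` so that `‖y r⁻¹‖ = 1` and, by Fujisaki,
`y = ξ c₁ r` with `ξ ∈ Kˣ`, `c₁ ∈ C`.  Write `ξ⁻¹ x / a₂ = η + d` with `η ∈ K`, `d ∈ D`
(`𝔸_K = K + D`), `d' = d r⁻¹`.  Then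
`b = z · [[ξ, ξη], [0, 1]] · diag(r, 1) · [[c₁, d'], [0, 1]]`, and `d'` lies in the compact image
of `D × [0, c^{-1/n}]` under `(d, σ) ↦ d · ray(σ)`.  So
`Ω = {[[c₁, d'], [0, 1]]} · K⁰` works, with `m = M = 1` (`s^n = t` exactly).
-/

set_option autoImplicit false

open IsDedekindDomain NumberField
open Fermat.Agent.LT.H556.A0
open Fermat.Agent.LT.T1
open Fermat.Agent.LT.T1.H793
open scoped Pointwise

noncomputable section

namespace Fermat.Agent.LT.T1.H919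

variable {K : Type} [Field K] [NumberField K]

lemma adNorm_one919 (hN : AdNormC K) : adNorm K (1 : Adl K) = 1 := by
  have h := hN.2.2.1 1
  rwa [map_one, Units.val_one] at h

lemma adNorm_inv919 (hN : AdNormC K) (x : (Adl K)ˣ) :
    adNorm K ((x⁻¹ : (Adl K)ˣ) : Adl K) = (adNorm K (x : Adl K))⁻¹ := by
  have h := hN.2.1 x x⁻¹
  rw [mul_inv_cancel, Units.val_one, adNorm_one919 hN] at h
  exact eq_inv_of_mul_eq_one_right h.symm

/-- **`SiegelCompactC`** from `AdeleLatticeC`, `AdNormC` and `FujisakiC`. -/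
theorem siegelCompactC919 (hAL : AdeleLatticeC K) (hN : AdNormC K) (hFu : FujisakiC K) :
    SiegelCompactC K := by
  intro c hc
  obtain ⟨-, -, D, hD, hDcov⟩ := hAL
  obtain ⟨C, hC, hCcov⟩ := hFu
  have hn0 : Module.finrank ℚ K ≠ 0 := (Module.finrank_pos (R := ℚ) (M := K)).ne'
  set n : ℕ := Module.finrank ℚ K with hn
  set s₀ : ℝ := c ^ ((n : ℝ)⁻¹) with hs₀
  have hs₀pos : 0 < s₀ := Real.rpow_pos_of_pos hc _
  -- the compact sets
  set D' : Set (Adl K) :=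
    (fun p : Adl K × ℝ => p.1 * rayAdl919 K p.2) '' (D ×ˢ Set.Icc (0 : ℝ) s₀⁻¹) with hD'
  have hD'c : IsCompact D' :=
    (hD.prod isCompact_Icc).image
      (continuous_fst.mul (continuous_rayAdl919.comp continuous_snd))
  set Ω' : Set (G K) :=
    (fun p : (Adl K)ˣ × Adl K => (up919 p.1 p.2 : G K)) '' (C ×ˢ D') with hΩ'
  have hΩ'c : IsCompact Ω' := (hC.prod hD'c).image continuous_up919
  refine ⟨Ω' * {k : G K | IsStdCompact K k}, 1, 1, hΩ'c.mul isCompact_stdCompact919,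
    one_pos, le_refl 1, ?_⟩
  rintro g t ⟨b, k, hb, hk, hg, ht⟩ hct
  have htpos : 0 < t := lt_of_lt_of_le hc hct
  -- the diagonal entries of `b`
  obtain ⟨⟨a1, ha1⟩, ⟨a2, ha2⟩⟩ := isUnit_diag793 hb
  have hty : adNorm K ((a1 * a2⁻¹ : (Adl K)ˣ) : Adl K) = t := by
    rw [hN.2.1, adNorm_inv919 hN, ha1, ha2, ht, div_eq_mul_inv]
  -- the ray parameter
  set s : ℝ := t ^ ((n : ℝ)⁻¹) with hs
  have hspos : 0 < s := Real.rpow_pos_of_pos htpos _
  have hsn : s ^ n = t := Real.rpow_inv_natCast_pow htpos.le hn0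
  have hs₀s : s₀ ≤ s := Real.rpow_le_rpow hc.le hct (inv_nonneg.mpr (Nat.cast_nonneg n))
  set su : ℝˣ := Units.mk0 s hspos.ne' with hsu
  set r : (Adl K)ˣ := Units.map (rayAdl919 K) su with hr
  have hrval : (r : Adl K) = rayAdl919 K s := rfl
  have hrinv : ((r⁻¹ : (Adl K)ˣ) : Adl K) = rayAdl919 K s⁻¹ := by
    have : r⁻¹ = Units.map (rayAdl919 K) su⁻¹ := (map_inv _ _).symm
    rw [this]
    rfl
  have hrn : adNorm K (r : Adl K) = t := by
    rw [hrval, adNorm_rayAdl919, abs_of_pos hspos, hsn]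
  -- Fujisaki
  have h1 : adNorm K ((a1 * a2⁻¹ * r⁻¹ : (Adl K)ˣ) : Adl K) = 1 := by
    rw [hN.2.1, hty, adNorm_inv919 hN, hrn, mul_inv_cancel₀ htpos.ne']
  obtain ⟨ξ, hξ⟩ := hCcov (a1 * a2⁻¹ * r⁻¹) h1
  set c₁ : (Adl K)ˣ := (ratUnit K ξ)⁻¹ * (a1 * a2⁻¹ * r⁻¹) with hc₁
  -- the lattice `K ⊂ 𝔸_K`
  set x' : Adl K := (b : Matrix (Fin 2) (Fin 2) (Adl K)) 0 1 * ((a2⁻¹ : (Adl K)ˣ) : Adl K)
    with hx'
  set u : Adl K := (((ratUnit K ξ)⁻¹ : (Adl K)ˣ) : Adl K) * x' with hu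
  obtain ⟨η, hη⟩ := hDcov u
  set d : Adl K := u - algebraMap K (Adl K) η with hd
  set d' : Adl K := d * rayAdl919 K s⁻¹ with hd'
  have hd'mem : d' ∈ D' :=
    ⟨(d, s⁻¹), ⟨hη, ⟨inv_nonneg.2 hspos.le, inv_anti₀ hs₀pos hs₀s⟩⟩, rfl⟩
  -- the decomposition
  have e1 : ratG K (up919 ξ ((ξ : K) * η))
      = up919 (ratUnit K ξ) (algebraMap K (Adl K) ((ξ : K) * η)) :=
    map_up919 (algebraMap K (Adl K)) ξ ((ξ : K) * η)
  have hξval : ((ratUnit K ξ : (Adl K)ˣ) : Adl K) = algebraMap K (Adl K) (ξ : K) := rfl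
  have e2 : up919 (ratUnit K ξ) (algebraMap K (Adl K) ((ξ : K) * η)) * rayG919 K su
      * up919 c₁ d' = up919 (a1 * a2⁻¹) x' := by
    rw [rayG919, up919_mul, up919_mul]
    have hu1 : ratUnit K ξ * Units.map (rayAdl919 K) su * c₁ = a1 * a2⁻¹ := by
      rw [hc₁, ← hr]
      calc ratUnit K ξ * r * ((ratUnit K ξ)⁻¹ * (a1 * a2⁻¹ * r⁻¹))
          = (ratUnit K ξ * (ratUnit K ξ)⁻¹) * (r * r⁻¹) * (a1 * a2⁻¹) := by
            simp only [mul_comm, mul_left_comm, mul_assoc]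
        _ = a1 * a2⁻¹ := by rw [mul_inv_cancel, mul_inv_cancel, one_mul, one_mul]
    have hu2 : ((ratUnit K ξ * Units.map (rayAdl919 K) su : (Adl K)ˣ) : Adl K) * d'
        + (((ratUnit K ξ : (Adl K)ˣ) : Adl K) * 0 + algebraMap K (Adl K) ((ξ : K) * η)) = x' := by
      rw [← hr, Units.val_mul, hd', ← hrinv, hd, hu, map_mul, hξval]
      have hrr : (r : Adl K) * ((r⁻¹ : (Adl K)ˣ) : Adl K) = 1 := by
        rw [← Units.val_mul, mul_inv_cancel, Units.val_one]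
      have hξξ : algebraMap K (Adl K) (ξ : K) * (((ratUnit K ξ)⁻¹ : (Adl K)ˣ) : Adl K) = 1 := by
        rw [← hξval, ← Units.val_mul, mul_inv_cancel, Units.val_one]
      calc algebraMap K (Adl K) (ξ : K) * (r : Adl K)
            * (((((ratUnit K ξ)⁻¹ : (Adl K)ˣ) : Adl K) * x' - algebraMap K (Adl K) η)
              * ((r⁻¹ : (Adl K)ˣ) : Adl K))
            + (algebraMap K (Adl K) (ξ : K) * 0
              + algebraMap K (Adl K) (ξ : K) * algebraMap K (Adl K) η)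
          = ((r : Adl K) * ((r⁻¹ : (Adl K)ˣ) : Adl K))
              * ((algebraMap K (Adl K) (ξ : K) * (((ratUnit K ξ)⁻¹ : (Adl K)ˣ) : Adl K)) * x'
                - algebraMap K (Adl K) (ξ : K) * algebraMap K (Adl K) η)
              + algebraMap K (Adl K) (ξ : K) * algebraMap K (Adl K) η := by ring
        _ = x' := by rw [hrr, hξξ]; ring
    rw [hu1, hu2]
  refine ⟨up919 ξ ((ξ : K) * η), scalarG919 a2, rayG919 K su, up919 c₁ d' * k, s,
    ?_, ⟨(a2 : Adl K), scalarG919_val a2⟩, hspos, isRay_rayG919 su, ?_, ?_, ?_, ?_⟩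
  · show ((up919 ξ ((ξ : K) * η) : GL (Fin 2) K) : Matrix (Fin 2) (Fin 2) K) 1 0 = 0
    rfl
  · exact Set.mul_mem_mul ⟨(c₁, d'), ⟨hξ, hd'mem⟩, rfl⟩ hk
  · rw [hg]
    conv_lhs => rw [upper_eq_scalar_mul_up919 b hb a1 a2 ha1 ha2]
    rw [← hx', ← e2, e1, ← scalarG919_comm]
    simp only [mul_assoc]
  · rw [one_mul, hsn]
  · rw [one_mul, hsn]

/-- **Sub-leaf T1.16**, verbatim. -/
theorem leafSiegelCompact919 (K : Type) [Field K] [NumberField K] : LeafSiegelCompact K :=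
  fun _ hAL hN hFu _ _ => siegelCompactC919 hAL hN hFu

end Fermat.Agent.LT.T1.H919

end
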